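/-
S19 / S32, abstract block, leaf L3 (helper17): the `ℚ̄`-points of a Hopf order are the
evaluations.

For a `ℤ_(ℓ)`-subalgebra `Hs` of `M → ℚ̄` (`M` finite) made of Galois-equivariant functions and
finitely generated as a module, every `ℤ_(ℓ)`-algebra homomorphism `χ : Hs → ℚ̄` is the
evaluation at a point `y` of `M`.

Proof.  `ker χ` is a prime ideal containing `0 = ⋂_y ker ev_y`, so it contains some `ker ev_y`.
The domain `A = ev_y(Hs) ⊂ ℚ̄` is integral over `ℤ_(ℓ)`, and the induced map `θ : A → ℚ̄`,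
`θ (φ y) = χ φ`, restricts to the inclusion on `ℤ_(ℓ)`; by incomparability `θ` is injective.
As `ℚ̄` is algebraic over `A` and algebraically closed, `θ` extends to a ring endomorphism of
`ℚ̄`, which is an automorphism `σ`; then `χ φ = σ (φ y) = φ (σ y)` by equivariance.
-/
import Mathlib
import Fermat.Agent.S19.Abs.Defs

set_option autoImplicit false

namespace Fermat.Agent.S19.Base

open GaloisRep Fermat.Agent.S19.Abs

variable (ℓ : ℕ) {M : Type}

/-- evaluation at a point, as an algebra homomorphism on a subalgebra of functions -/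
noncomputable def evalHom (Hs : Subalgebra (ratLocalizedAt ℓ) (M → Qb)) (y : M) :
    Hs →ₐ[ratLocalizedAt ℓ] Qb :=
  (Pi.evalAlgHom (ratLocalizedAt ℓ) (fun _ : M => Qb) y).comp Hs.val

@[simp]
theorem evalHom_apply (Hs : Subalgebra (ratLocalizedAt ℓ) (M → Qb)) (y : M) (φ : Hs) :
    evalHom ℓ Hs y φ = (φ : M → Qb) y := rfl

/-- a prime ideal of an algebra of functions on a finite set contains the kernel of an
evaluation -/
theorem exists_ker_evalHom_le [Finite M] [Nonempty M] (Hs : Subalgebra (ratLocalizedAt ℓ) (M → Qb))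
    (P : Ideal Hs) (hP : P.IsPrime) :
    ∃ y : M, RingHom.ker (evalHom ℓ Hs y) ≤ P := by
  classical
  have : Fintype M := Fintype.ofFinite M
  have h0 : (Finset.univ.inf fun y : M => RingHom.ker (evalHom ℓ Hs y)) ≤ P := by
    intro φ hφ
    have hφ0 : φ = 0 := by
      apply Subtype.ext
      funext y
      have hy : φ ∈ RingHom.ker (evalHom ℓ Hs y) :=
        (Finset.inf_le (f := fun y : M => RingHom.ker (evalHom ℓ Hs y)) (Finset.mem_univ y)) hφ
      simpa [RingHom.mem_ker] using hy
    rw [hφ0]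
    exact P.zero_mem
  obtain ⟨y, -, hy⟩ := (Ideal.IsPrime.inf_le' hP).1 h0
  exact ⟨y, hy⟩

/-- a copy of `ℚ̄`, used to carry a second algebra structure -/
def QbCopy : Type := Qb

noncomputable instance : Field QbCopy := inferInstanceAs (Field Qb)

instance : IsAlgClosed QbCopy := inferInstanceAs (IsAlgClosed Qb)

/-- `ℚ̄` is algebraic over every subring (here: over a subalgebra `A` for any base `R₀`) -/
theorem isAlgebraic_subalgebra {R₀ : Type} [CommRing R₀] [Algebra R₀ Qb] (A : Subalgebra R₀ Qb) :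
    Algebra.IsAlgebraic A Qb := by
  refine ⟨fun x => ?_⟩
  have hQ : IsAlgebraic ℚ x := (AlgebraicClosure.isAlgebraic ℚ).isAlgebraic x
  have hZ : IsAlgebraic ℤ x := (IsFractionRing.isAlgebraic_iff ℤ ℚ Qb).2 hQ
  have hinj : Function.Injective (algebraMap ℤ A) := by
    intro a b hab
    have h1 : ((algebraMap ℤ A a : A) : Qb) = ((algebraMap ℤ A b : A) : Qb) := by rw [hab]
    simpa using h1
  exact hZ.extendScalars hinj

set_option linter.unusedVariables false in
/-- **L3.** Every `ℤ_(ℓ)`-algebra homomorphism from a Hopf order to `ℚ̄` is an evaluation.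
(Only `equivariant` and `fg` are used.) -/
theorem exists_eq_eval (ℓ : ℕ) [Fact ℓ.Prime] {M : Type} [AddCommGroup M] [Finite M]
    {act : GQ → M → M} (hact : IsGalAction act)
    {Hs : Subalgebra (ratLocalizedAt ℓ) (M → Qb)} (h : IsHopfOrder ℓ act Hs)
    (χ : Hs →ₐ[ratLocalizedAt ℓ] Qb) : ∃ y : M, ∀ φ : Hs, χ φ = (φ : M → Qb) y := by
  classical
  -- Step 1: `ker χ` contains the kernel of an evaluation
  obtain ⟨y, hy⟩ := exists_ker_evalHom_le ℓ Hs (RingHom.ker χ) (RingHom.ker_isPrime χ)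
  -- the image of the evaluation
  let ev : Hs →ₐ[ratLocalizedAt ℓ] Qb := evalHom ℓ Hs y
  let A : Subalgebra (ratLocalizedAt ℓ) Qb := ev.range
  let evA : Hs →ₐ[ratLocalizedAt ℓ] A := ev.rangeRestrict
  have hsurj : Function.Surjective evA := ev.rangeRestrict_surjective
  have hker : RingHom.ker (evA : Hs →+* A) ≤ RingHom.ker (χ : Hs →+* Qb) := by
    intro φ hφ
    apply hy
    rw [RingHom.mem_ker] at hφ ⊢
    have : ((evA φ : A) : Qb) = 0 := by
      have := congrArg (fun a : A => (a : Qb)) hφ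
      simpa using this
    simpa [evA, ev] using this
  -- Step 2: the induced map `θ : A → ℚ̄`
  let θ : A →+* Qb := (evA : Hs →+* A).liftOfSurjective hsurj ⟨(χ : Hs →+* Qb), hker⟩
  have hθ : ∀ φ : Hs, θ (evA φ) = χ φ := fun φ =>
    RingHom.liftOfSurjective_comp_apply (evA : Hs →+* A) hsurj ⟨(χ : Hs →+* Qb), hker⟩ φ
  have hθR : ∀ r : ratLocalizedAt ℓ, θ (algebraMap (ratLocalizedAt ℓ) A r) =
      algebraMap (ratLocalizedAt ℓ) Qb r := by
    intro r
    have h1 : algebraMap (ratLocalizedAt ℓ) A r = evA (algebraMap (ratLocalizedAt ℓ) Hs r) :=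
      (evA.commutes r).symm
    rw [h1, hθ, χ.commutes]
  -- `A` is integral over `ℤ_(ℓ)`
  have hfinHs : Module.Finite (ratLocalizedAt ℓ) Hs := ⟨(Submodule.fg_top _).2 h.fg⟩
  have hfinA : Module.Finite (ratLocalizedAt ℓ) A :=
    Module.Finite.of_surjective evA.toLinearMap hsurj
  have hintA : Algebra.IsIntegral (ratLocalizedAt ℓ) A := Algebra.IsIntegral.of_finite _ _
  -- `θ` is injective by incomparability
  have hinjR : Function.Injective (algebraMap (ratLocalizedAt ℓ) Qb) := by
    intro a b hab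
    have h1 : algebraMap ℚ Qb (a : ℚ) = algebraMap ℚ Qb (b : ℚ) := hab
    exact Subtype.ext ((algebraMap ℚ Qb).injective h1)
  have hθinj : Function.Injective θ := by
    rw [RingHom.injective_iff_ker_eq_bot]
    apply Ideal.eq_bot_of_comap_eq_bot (R := ratLocalizedAt ℓ)
    rw [eq_bot_iff]
    intro r hr
    rw [Ideal.mem_comap, RingHom.mem_ker, hθR] at hr
    rw [Ideal.mem_bot]
    exact hinjR (by rw [hr, map_zero])
  -- Step 3: extend `θ` to an automorphism of `ℚ̄`
  let algT : Algebra A QbCopy := RingHom.toAlgebra (θ : A →+* Qb)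
  have halgT : ∀ a : A, algebraMap A QbCopy a = θ a := fun _ => rfl
  have : Module.IsTorsionFree A QbCopy :=
    (Module.isTorsionFree_iff_algebraMap_injective (R := A) (A := QbCopy)).2 hθinj
  have : Algebra.IsAlgebraic A Qb := isAlgebraic_subalgebra A
  let σ₀ : Qb →ₐ[A] QbCopy := IsAlgClosed.lift
  have hσ₀ : ∀ a : A, σ₀ (a : Qb) = θ a := fun a => by
    have := σ₀.commutes a
    rw [halgT] at this
    exact this
  let g : Qb →+* Qb := (σ₀ : Qb →+* QbCopy)
  let f : Qb →ₐ[ℚ] Qb := RingHom.toRatAlgHom g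
  have hf : ∀ x : Qb, f x = σ₀ x := fun _ => rfl
  have hbij : Function.Bijective f :=
    (AlgebraicClosure.isAlgebraic ℚ).algHom_bijective f
  let σ : GQ := AlgEquiv.ofBijective f hbij
  have hσ : ∀ x : Qb, σ x = σ₀ x := fun _ => rfl
  refine ⟨act σ y, fun φ => ?_⟩
  rw [h.equivariant φ φ.2 σ y, hσ]
  have h1 : ((evA φ : A) : Qb) = (φ : M → Qb) y := rfl
  rw [← h1, hσ₀, hθ]

end Fermat.Agent.S19.Base
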