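/-
S19 / S32, abstract block, leaf L4 (helper17): the value at `0` of a function of a Hopf order
lies in `ℤ_(ℓ)` (so the counit `φ ↦ φ 0` is defined over `ℤ_(ℓ)`).

`φ 0` is fixed by `G_ℚ` (equivariance and `act σ 0 = 0`), hence rational; it is integral over
`ℤ_(ℓ)` because `Hs` is a finitely generated module and evaluation is an algebra homomorphism;
`ℤ_(ℓ)` is integrally closed with fraction field `ℚ`.
-/
import Mathlib
import Fermat.Agent.S19.Abs.Defs
import Fermat.Agent.S28.LocalizedInt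
import Fermat.Agent.S51.GaloisFixed

set_option autoImplicit false

namespace Fermat.Agent.S19.Base

open GaloisRep Fermat.Agent.S19.Abs

/-- a Galois action by additive maps fixes `0` -/
theorem act_zero {M : Type} [AddCommGroup M] {act : GQ → M → M} (hact : IsGalAction act)
    (σ : GQ) : act σ 0 = 0 := by
  have h := hact.add σ 0 0
  rw [add_zero] at h
  exact left_eq_add.mp h

/-- an element of `ℚ` whose image in `ℚ̄` is integral over `ℤ_(ℓ)` lies in `ℤ_(ℓ)` -/
theorem mem_ratLocalizedAt_of_isIntegral (ℓ : ℕ) [Fact ℓ.Prime] (q : ℚ)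
    (hq : IsIntegral (ratLocalizedAt ℓ) (algebraMap ℚ Qb q)) : q ∈ ratLocalizedAt ℓ := by
  have hq' : IsIntegral (ratLocalizedAt ℓ) q :=
    (isIntegral_algebraMap_iff (algebraMap ℚ Qb).injective).1 hq
  obtain ⟨r, hr⟩ := (IsIntegrallyClosed.isIntegral_iff (R := ratLocalizedAt ℓ) (K := ℚ)).1 hq'
  rw [← hr]
  exact r.2

/-- **L4.** The value at `0` of an element of a Hopf order lies in `ℤ_(ℓ)`. -/
theorem const_zero_mem (ℓ : ℕ) [Fact ℓ.Prime] {M : Type} [AddCommGroup M] {act : GQ → M → M}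
    (hact : IsGalAction act) {Hs : Subalgebra (ratLocalizedAt ℓ) (M → Qb)}
    (h : IsHopfOrder ℓ act Hs) :
    ∀ φ ∈ Hs, ∃ r : ratLocalizedAt ℓ, φ 0 = algebraMap (ratLocalizedAt ℓ) Qb r := by
  intro φ hφ
  -- `φ 0` is Galois-fixed, hence rational
  have hfix : ∀ σ : GQ, σ (φ 0) = φ 0 := fun σ => by
    rw [← h.equivariant φ hφ σ 0, act_zero hact]
  obtain ⟨q, hq⟩ := Fermat.Agent.S51.exists_rat_of_fixed (φ 0) hfix
  -- `φ` is integral over `ℤ_(ℓ)`, hence so is `φ 0`
  have hint : IsIntegral (ratLocalizedAt ℓ) φ := IsIntegral.of_mem_of_fg Hs h.fg φ hφ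
  have hint0 : IsIntegral (ratLocalizedAt ℓ) (φ 0) :=
    hint.map (Pi.evalAlgHom (ratLocalizedAt ℓ) (fun _ : M => Qb) 0)
  rw [← hq] at hint0
  exact ⟨⟨q, mem_ratLocalizedAt_of_isIntegral ℓ q hint0⟩, hq.symm⟩

end Fermat.Agent.S19.Base
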