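/-
S19 (helper19): **the maximal unramified level `Kmax A` is henselian.**

`A ⊂ Q̄` a valuation subring, `I_A = A.inertiaSubgroupIn ℚ`, `Kmax A` its fixed field
(`S36/Descent/UnramLevel.lean`: `A ∩ Kmax A` is a discrete valuation ring with uniformiser `q`,
algebraically closed residue field `= κ(A)`).

* `exists_inertia_apply_eq` : an automorphism `τ` of `Q̄` fixing `Kmax A` pointwise agrees at every
  given element with some element of `I_A` (`τ` lies in the closure of `I_A`);
* `apply_mem_of_fixes`, `apply_mem_nonunits_of_fixes`, `apply_sub_mem_nonunits_of_fixes` :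
  such a `τ` preserves `A`, `𝔪_A` and acts trivially on the residue field;
* `exists_monic_of_mem` : every `x ∈ A` is a root of a monic polynomial with coefficients in
  `A ∩ Kmax A` (so for every `L ⊇ Kmax A`, `A ∩ L` is the integral closure of `A ∩ Kmax A` in `L`);
* `exists_root_of_simple_root` : **Hensel's lemma** for `A ∩ Kmax A`: a monic polynomial over
  `A ∩ Kmax A` with a root `a₀ ∈ A` which is simple modulo `𝔪_A` has a root in `A ∩ Kmax A` congruent
  to `a₀`.
-/
import Mathlib
import Fermat.Agent.S36.Descent.UnramLevel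
import Fermat.Agent.S05.Inertia

set_option autoImplicit false
set_option linter.unusedSectionVars false
set_option linter.style.haveILetI false

open Fermat.Agent.N4.BigDVR Fermat.Agent.S36.Descent.UnramLevel Polynomial

noncomputable section

namespace Fermat.Agent.S19.Base.HenselKmax

local notation "Qbar" => AlgebraicClosure ℚ
local notation "Γ" => (AlgebraicClosure ℚ ≃ₐ[ℚ] AlgebraicClosure ℚ)

variable {A : ValuationSubring Qbar}

local instance isAlgebraicQb_HK : Algebra.IsAlgebraic ℚ (AlgebraicClosure ℚ) :=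
  AlgebraicClosure.isAlgebraic ℚ

/-- **`Gal(Q̄ / Kmax A)` is the closure of `I_A`**: an automorphism fixing `Kmax A` pointwise agrees
at any given element with an element of the inertia group. -/
theorem exists_inertia_apply_eq {τ : Γ} (hτ : ∀ y ∈ Kmax A, τ y = y) (x : Qbar) :
    ∃ σ ∈ A.inertiaSubgroupIn ℚ, σ x = τ x := by
  classical
  -- the normal closure of `ℚ(x)`
  set E : IntermediateField ℚ Qbar :=
    IntermediateField.adjoin ℚ ((minpoly ℚ x).rootSet Qbar) with hE
  have hxint : IsIntegral ℚ x := (Algebra.IsAlgebraic.isAlgebraic x).isIntegral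
  haveI : (minpoly ℚ x).IsSplittingField ℚ E :=
    IntermediateField.adjoin_rootSet_isSplittingField (IsAlgClosed.splits _)
  haveI : Normal ℚ E := Normal.of_isSplittingField (minpoly ℚ x)
  haveI : FiniteDimensional ℚ E := Polynomial.IsSplittingField.finiteDimensional E (minpoly ℚ x)
  have hxE : x ∈ E := by
    apply IntermediateField.subset_adjoin
    rw [Polynomial.mem_rootSet]
    exact ⟨minpoly.ne_zero hxint, minpoly.aeval ℚ x⟩
  set res : Γ →* (E ≃ₐ[ℚ] E) := AlgEquiv.restrictNormalHom E with hres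
  have hres_apply : ∀ (σ : Γ) (y : E), ((res σ y : E) : Qbar) = σ (y : Qbar) := fun σ y =>
    AlgEquiv.restrictNormal_commutes σ E y
  set H : Subgroup (E ≃ₐ[ℚ] E) := (A.inertiaSubgroupIn ℚ).map res with hH
  have hmem : res τ ∈ (IntermediateField.fixedField H).fixingSubgroup := by
    rw [IntermediateField.mem_fixingSubgroup_iff]
    intro y hy
    rw [IntermediateField.mem_fixedField_iff] at hy
    apply Subtype.ext
    rw [hres_apply]
    apply hτ
    rw [mem_Kmax_iff]
    intro σ hσ
    have := hy (res σ) (Subgroup.mem_map_of_mem res hσ)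
    rw [← hres_apply, this]
  rw [IntermediateField.fixingSubgroup_fixedField] at hmem
  obtain ⟨σ, hσ, hστ⟩ := hmem
  refine ⟨σ, hσ, ?_⟩
  have h1 := hres_apply σ ⟨x, hxE⟩
  have h2 := hres_apply τ ⟨x, hxE⟩
  rw [hστ] at h1
  exact h1.symm.trans h2

/-- An automorphism fixing `Kmax A` pointwise preserves `A`. -/
theorem apply_mem_of_fixes {τ : Γ} (hτ : ∀ y ∈ Kmax A, τ y = y) {x : Qbar} (hx : x ∈ A) :
    τ x ∈ A := by
  obtain ⟨σ, hσ, h⟩ := exists_inertia_apply_eq hτ x
  rw [← h]
  exact (Fermat.Agent.S05.Inertia.apply_mem_iff_of_mem_inertiaSubgroupIn A hσ x).mpr hx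

/-- An automorphism fixing `Kmax A` pointwise preserves `𝔪_A`. -/
theorem apply_mem_nonunits_of_fixes {τ : Γ} (hτ : ∀ y ∈ Kmax A, τ y = y) {x : Qbar}
    (hx : x ∈ A.nonunits) : τ x ∈ A.nonunits := by
  obtain ⟨σ, hσ, h⟩ := exists_inertia_apply_eq hτ x
  rw [← h]
  exact (Fermat.Agent.S05.Inertia.apply_mem_nonunits_iff_of_mem_inertiaSubgroupIn A hσ x).mpr hx

/-- An automorphism fixing `Kmax A` pointwise acts trivially on the residue field of `A`. -/
theorem apply_sub_mem_nonunits_of_fixes {τ : Γ} (hτ : ∀ y ∈ Kmax A, τ y = y) {x : Qbar}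
    (hx : x ∈ A) : τ x - x ∈ A.nonunits := by
  obtain ⟨σ, hσ, h⟩ := exists_inertia_apply_eq hτ x
  rw [← h]
  exact Fermat.Agent.S05.Inertia.apply_sub_mem_nonunits_of_mem_inertiaSubgroupIn A hσ hx

/-! ### Integrality of `A` over `A ∩ Kmax A` -/

/-- The `Kmax A`-conjugates of an element of `A` lie in `A`. -/
theorem root_mem_of_mem {x : Qbar} (hx : x ∈ A) {y : Qbar}
    (hy : aeval y (minpoly ↥(Kmax A) x) = 0) : y ∈ A := by
  haveI : Algebra.IsAlgebraic ↥(Kmax A) Qbar := Algebra.IsAlgebraic.tower_top (K := ℚ) _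
  haveI : Normal ↥(Kmax A) Qbar := normal_iff.mpr fun z =>
    ⟨(Algebra.IsAlgebraic.isAlgebraic z).isIntegral, IsAlgClosed.splits _⟩
  obtain ⟨σ, hσ⟩ := minpoly.exists_algEquiv_of_root' (K := ↥(Kmax A))
    (Algebra.IsAlgebraic.isAlgebraic x) hy
  set τ : Γ := σ.restrictScalars ℚ with hτdef
  have hτ : ∀ z ∈ Kmax A, τ z = z := fun z hz => σ.commutes ⟨z, hz⟩
  rw [← hσ]
  exact apply_mem_of_fixes hτ hx

/-- The coefficients of the minimal polynomial over `Kmax A` of an element of `A` lie in `A`. -/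
theorem coeff_minpoly_mem {x : Qbar} (hx : x ∈ A) (n : ℕ) :
    (minpoly ↥(Kmax A) x).coeff n ∈ trSubring A (Kmax A) := by
  classical
  haveI : Algebra.IsAlgebraic ↥(Kmax A) Qbar := Algebra.IsAlgebraic.tower_top (K := ℚ) _
  have hxint : IsIntegral ↥(Kmax A) x := (Algebra.IsAlgebraic.isAlgebraic x).isIntegral
  set p := minpoly ↥(Kmax A) x with hp
  set q : Qbar[X] := p.map (algebraMap ↥(Kmax A) Qbar) with hq
  have hqm : q.Monic := (minpoly.monic hxint).map _
  have hsplit : q.Splits := IsAlgClosed.splits q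
  have hprod := hsplit.eq_prod_roots_of_monic hqm
  have hroots : ∀ y ∈ q.roots, y ∈ A := by
    intro y hy
    apply root_mem_of_mem hx
    have := (Polynomial.mem_roots hqm.ne_zero).mp hy
    rw [IsRoot.def, hq, eval_map, ← aeval_def] at this
    exact this
  have hlift : q ∈ Polynomial.lifts A.subtype := by
    rw [hprod]
    refine Subsemiring.multiset_prod_mem _ _ fun f hf => ?_
    obtain ⟨y, hy, rfl⟩ := Multiset.mem_map.mp hf
    rw [Polynomial.mem_lifts]
    exact ⟨X - C ⟨y, hroots y hy⟩, by simp⟩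
  rw [Polynomial.lifts_iff_coeff_lifts] at hlift
  obtain ⟨a, ha⟩ := hlift n
  show (p.coeff n : ↥(Kmax A)) ∈ tr A ↥(Kmax A)
  rw [mem_tr_iff]
  have : algebraMap ↥(Kmax A) Qbar (p.coeff n) = q.coeff n := by rw [hq, coeff_map]
  rw [this, ← ha]
  exact a.2

/-- **`A` is integral over `A ∩ Kmax A`**: the minimal polynomial over `Kmax A` of an element of `A`
has coefficients in `A ∩ Kmax A`. -/
theorem exists_monic_of_mem {x : Qbar} (hx : x ∈ A) :
    ∃ P : Polynomial ↥(trSubring A (Kmax A)), P.Monic ∧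
      P.map (trSubring A (Kmax A)).subtype = minpoly ↥(Kmax A) x := by
  haveI : Algebra.IsAlgebraic ↥(Kmax A) Qbar := Algebra.IsAlgebraic.tower_top (K := ℚ) _
  have hxint : IsIntegral ↥(Kmax A) x := (Algebra.IsAlgebraic.isAlgebraic x).isIntegral
  have hsub : (↑(minpoly ↥(Kmax A) x).coeffs : Set ↥(Kmax A)) ⊆ trSubring A (Kmax A) := by
    intro c hc
    obtain ⟨n, -, rfl⟩ := Polynomial.mem_coeffs_iff.mp hc
    exact coeff_minpoly_mem hx n
  refine ⟨(minpoly ↥(Kmax A) x).toSubring _ hsub, ?_, Polynomial.map_toSubring _ _ _⟩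
  exact (Polynomial.monic_toSubring _ _ _).mpr (minpoly.monic hxint)

/-! ### Hensel's lemma -/

/-- `A ∩ Kmax A → Q̄`. -/
abbrev ιmax (A : ValuationSubring Qbar) : ↥(trSubring A (Kmax A)) →+* Qbar :=
  (algebraMap ↥(Kmax A) Qbar).comp (trSubring A (Kmax A)).subtype

/-- **Hensel's lemma for `A ∩ Kmax A`** (uniqueness form): a root in `A` of a polynomial over
`A ∩ Kmax A` which is simple modulo `𝔪_A` lies in `Kmax A`. -/
theorem mem_Kmax_of_simple_root (P : Polynomial ↥(trSubring A (Kmax A))) {a : Qbar} (ha : a ∈ A)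
    (hroot : (P.map (ιmax A)).eval a = 0)
    (hsimple : (P.map (ιmax A)).derivative.eval a ∉ A.nonunits) : a ∈ Kmax A := by
  rw [mem_Kmax_iff]
  intro σ hσ
  by_contra hne
  -- the polynomial over `A`
  set j : ↥(trSubring A (Kmax A)) →+* ↥A := trIncl A ↥(Kmax A) with hj
  have hjι : (A.subtype : ↥A →+* Qbar).comp j = ιmax A := by ext z; rfl
  set QA : Polynomial ↥A := P.map j with hQA
  have hQ : QA.map A.subtype = P.map (ιmax A) := by rw [hQA, Polynomial.map_map, hjι]
  have hσa : σ a ∈ A :=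
    (Fermat.Agent.S05.Inertia.apply_mem_iff_of_mem_inertiaSubgroupIn A hσ a).mpr ha
  have hy : σ a - a ∈ A.nonunits :=
    Fermat.Agent.S05.Inertia.apply_sub_mem_nonunits_of_mem_inertiaSubgroupIn A hσ ha
  set aA : ↥A := ⟨a, ha⟩ with haA
  set yA : ↥A := ⟨σ a - a, A.sub_mem hσa ha⟩ with hyA
  obtain ⟨k, hk⟩ := Polynomial.binomExpansion QA aA yA
  -- `σ a` is a root
  have hσroot : (P.map (ιmax A)).eval (σ a) = 0 := by
    have hfix : (P.map (ιmax A)).map (σ : Qbar →+* Qbar) = P.map (ιmax A) := by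
      rw [Polynomial.map_map]
      congr 1
      ext z
      exact apply_eq_of_mem_Kmax (z : ↥(Kmax A)).2 hσ
    have := congrArg (σ : Qbar →+* Qbar) hroot
    rw [map_zero, ← Polynomial.eval_map_apply, hfix] at this
    exact this
  have hev : ∀ z : ↥A, ((QA.eval z : ↥A) : Qbar) = (P.map (ιmax A)).eval (z : Qbar) := by
    intro z
    rw [← hQ]
    exact (Polynomial.eval_map_apply (A.subtype : ↥A →+* Qbar) z).symm
  have hev' : ∀ z : ↥A, ((QA.derivative.eval z : ↥A) : Qbar) =
      (P.map (ιmax A)).derivative.eval (z : Qbar) := by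
    intro z
    have hd : (P.map (ιmax A)).derivative = (QA.derivative).map A.subtype := by
      rw [← hQ, Polynomial.derivative_map]
    rw [hd]
    exact (Polynomial.eval_map_apply (A.subtype : ↥A →+* Qbar) z).symm
  have hk' : (P.map (ιmax A)).eval (σ a) = (P.map (ιmax A)).eval a +
      (P.map (ιmax A)).derivative.eval a * (σ a - a) + (k : Qbar) * (σ a - a) ^ 2 := by
    have h0 : ((QA.eval (aA + yA) : ↥A) : Qbar) = ((QA.eval aA : ↥A) : Qbar) +
        ((QA.derivative.eval aA : ↥A) : Qbar) * ((yA : ↥A) : Qbar) +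
        (k : Qbar) * ((yA : ↥A) : Qbar) ^ 2 := by rw [hk]; rfl
    rw [hev, hev, hev'] at h0
    have e1 : (((aA + yA : ↥A)) : Qbar) = σ a := by
      show a + (σ a - a) = σ a
      ring
    rw [e1] at h0
    exact h0
  rw [hσroot, hroot, zero_add] at hk'
  have hy0 : σ a - a ≠ 0 := sub_ne_zero.mpr hne
  have h1 : (P.map (ιmax A)).derivative.eval a = -((k : Qbar) * (σ a - a)) := by
    have h2 : (σ a - a) * ((P.map (ιmax A)).derivative.eval a + (k : Qbar) * (σ a - a)) = 0 := by
      rw [hk']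
      ring
    rcases mul_eq_zero.mp h2 with h3 | h3
    · exact absurd h3 hy0
    · exact eq_neg_of_add_eq_zero_left h3
  apply hsimple
  rw [h1]
  have : (k : Qbar) * (σ a - a) ∈ A.nonunits := by
    rw [ValuationSubring.mem_nonunits_iff] at hy ⊢
    rw [mul_comm, map_mul]
    exact mul_lt_one_of_lt_of_le hy ((A.valuation_le_one_iff _).mpr k.2)
  rw [ValuationSubring.mem_nonunits_iff] at this ⊢
  rwa [Valuation.map_neg]

/-! ### Finite extensions of a discretely valued level -/

section Finite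

variable {Ω : Type*} [Field Ω] (𝔸 : ValuationSubring Ω)
variable (K L : Type*) [Field K] [Field L] [Algebra K Ω] [Algebra K L] [Algebra L Ω]
  [IsScalarTower K L Ω] [FiniteDimensional K L] [CharZero K]

/-- If `𝔸 ∩ K` is a discrete valuation ring and `L/K` is finite, then `𝔸 ∩ L` is a discrete
valuation ring (the localisation of the integral closure of `𝔸 ∩ K` in `L` at the centre of `𝔸`). -/
theorem isDiscreteValuationRing_tr_of_finite [IsDiscreteValuationRing (tr 𝔸 K)] :
    IsDiscreteValuationRing (tr 𝔸 L) := by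
  classical
  set A₀ := tr 𝔸 K with hA₀
  letI algAL : Algebra A₀ L := ((algebraMap K L).comp (algebraMap A₀ K)).toAlgebra
  haveI : IsScalarTower A₀ K L := IsScalarTower.of_algebraMap_eq fun _ => rfl
  haveI : Algebra.IsSeparable K L := inferInstance
  set B := integralClosure A₀ L with hB
  haveI : IsDedekindDomain B := integralClosure.isDedekindDomain A₀ K L
  haveI : IsFractionRing B L := IsIntegralClosure.isFractionRing_of_finite_extension A₀ K L B
  haveI : Module.IsTorsionFree A₀ L := by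
    rw [Module.isTorsionFree_iff_algebraMap_injective]
    exact (algebraMap K L).injective.comp (IsFractionRing.injective A₀ K)
  haveI : Module.IsTorsionFree A₀ B := IsIntegralClosure.isTorsionFree A₀ L
  set V := tr 𝔸 L with hV
  have hAΩ : ∀ a : A₀, algebraMap L Ω (algebraMap A₀ L a) ∈ 𝔸 := by
    intro a
    have : algebraMap L Ω (algebraMap A₀ L a) = algebraMap K Ω (a : K) := by
      show algebraMap L Ω (algebraMap K L (a : K)) = _
      rw [← IsScalarTower.algebraMap_apply]
    rw [this]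
    exact (mem_tr_iff 𝔸 K).mp a.2
  have hBV : ∀ b : B, algebraMap B L b ∈ V := by
    intro b
    rw [hV, mem_tr_iff]
    letI : Algebra A₀ Ω := ((algebraMap L Ω).comp (algebraMap A₀ L)).toAlgebra
    haveI : IsScalarTower A₀ L Ω := IsScalarTower.of_algebraMap_eq fun _ => rfl
    have hb : IsIntegral A₀ (algebraMap B L b) := b.2
    exact mem_of_isIntegral 𝔸 (R := A₀) hAΩ (hb.map (IsScalarTower.toAlgHom A₀ L Ω))
  obtain ⟨ϖ, hϖirr⟩ := IsDiscreteValuationRing.exists_irreducible A₀
  have hϖ0 : ϖ ≠ 0 := hϖirr.ne_zero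
  set ϖB : B := algebraMap A₀ B ϖ with hϖB
  have hϖB0 : ϖB ≠ 0 := by
    rw [hϖB, Ne, map_eq_zero_iff _ (FaithfulSMul.algebraMap_injective A₀ B)]
    exact hϖ0
  have hϖBL : algebraMap B L ϖB = algebraMap K L (ϖ : K) := by
    rw [hϖB, ← IsScalarTower.algebraMap_apply A₀ B L]
    rfl
  have hπnon : algebraMap K Ω (ϖ : K) ∈ 𝔸.nonunits := by
    rw [← mem_tr_nonunits_iff, ← hA₀]
    exact (ValuationSubring.coe_mem_nonunits_iff (a := ϖ)).mpr
      ((IsLocalRing.mem_maximalIdeal _).mpr hϖirr.not_isUnit)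
  have hϖBcentre : ϖB ∈ centre V hBV := by
    rw [mem_centre_iff, hϖBL, hV, mem_tr_nonunits_iff, ← IsScalarTower.algebraMap_apply]
    exact hπnon
  have hne : centre V hBV ≠ ⊥ := fun h => hϖB0 ((Submodule.mem_bot B).mp (h ▸ hϖBcentre))
  exact isDiscreteValuationRing_of_centre_ne_bot V hBV hne

end Finite

end Fermat.Agent.S19.Base.HenselKmax
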