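/-
S19 / S32, abstract block (helper17): stability of Hopf orders.

`HasHopfOrder ℓ act` : the finite `G_ℚ`-module `(M, act)` carries a Hopf order
(`Abs.IsHopfOrder`).  This file proves that the property is stable under equivariant
isomorphisms and Galois-stable subgroups, and gives the tools to check closure under
comultiplication on algebra generators (`DeltaRep`, `deltaRep_of_adjoin`).
-/
import Mathlib
import Fermat.Agent.S19.Abs.Defs

set_option autoImplicit false

namespace Fermat.Agent.S19.Base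

open GaloisRep Fermat.Agent.S19.Abs

variable {ℓ : ℕ}

/-- pull-back of functions along a map, as an algebra homomorphism -/
def pullbackHom (ℓ : ℕ) {X Y : Type} (f : X → Y) :
    (Y → Qb) →ₐ[ratLocalizedAt ℓ] (X → Qb) where
  toFun ψ := ψ ∘ f
  map_one' := rfl
  map_mul' _ _ := rfl
  map_zero' := rfl
  map_add' _ _ := rfl
  commutes' _ := rfl

@[simp] theorem pullbackHom_apply {X Y : Type} (f : X → Y) (ψ : Y → Qb) (x : X) :
    pullbackHom ℓ f ψ x = ψ (f x) := rfl

/-- the finite `G_ℚ`-module `(M, act)` carries a Hopf order -/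
def HasHopfOrder (ℓ : ℕ) {M : Type} [AddCommGroup M] (act : GQ → M → M) : Prop :=
  ∃ Hs : Subalgebra (ratLocalizedAt ℓ) (M → Qb), IsHopfOrder ℓ act Hs

section DeltaRep

variable {M : Type} [AddCommGroup M]

/-- `φ (y + y')` is a finite sum of products `a y * b y'` with `a, b` in `Hs`
(index type an arbitrary finite type) -/
def DeltaRep (Hs : Subalgebra (ratLocalizedAt ℓ) (M → Qb)) (φ : M → Qb) : Prop :=
  ∃ (ι : Type) (_ : Fintype ι) (a b : ι → M → Qb), (∀ j, a j ∈ Hs) ∧ (∀ j, b j ∈ Hs) ∧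
    ∀ y y' : M, φ (y + y') = ∑ j, a j y * b j y'

theorem DeltaRep.to_fin {Hs : Subalgebra (ratLocalizedAt ℓ) (M → Qb)} {φ : M → Qb}
    (h : DeltaRep Hs φ) :
    ∃ (n : ℕ) (a b : Fin n → M → Qb), (∀ j, a j ∈ Hs) ∧ (∀ j, b j ∈ Hs) ∧
      ∀ y y' : M, φ (y + y') = ∑ j, a j y * b j y' := by
  obtain ⟨ι, _, a, b, ha, hb, hab⟩ := h
  let e := Fintype.equivFin ι
  refine ⟨Fintype.card ι, fun j => a (e.symm j), fun j => b (e.symm j), fun j => ha _,
    fun j => hb _, fun y y' => ?_⟩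
  rw [hab]
  exact (Equiv.sum_comp e.symm (fun j => a j y * b j y')).symm

theorem DeltaRep.of_fin {Hs : Subalgebra (ratLocalizedAt ℓ) (M → Qb)} {φ : M → Qb}
    (h : ∃ (n : ℕ) (a b : Fin n → M → Qb), (∀ j, a j ∈ Hs) ∧ (∀ j, b j ∈ Hs) ∧
      ∀ y y' : M, φ (y + y') = ∑ j, a j y * b j y') : DeltaRep Hs φ := by
  obtain ⟨n, a, b, ha, hb, hab⟩ := h
  exact ⟨Fin n, inferInstance, a, b, ha, hb, hab⟩

variable (Hs : Subalgebra (ratLocalizedAt ℓ) (M → Qb))

theorem deltaRep_algebraMap (r : ratLocalizedAt ℓ) :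
    DeltaRep Hs (algebraMap (ratLocalizedAt ℓ) (M → Qb) r) :=
  ⟨Unit, inferInstance, fun _ => algebraMap (ratLocalizedAt ℓ) (M → Qb) r, fun _ => 1,
    fun _ => Hs.algebraMap_mem r, fun _ => Hs.one_mem, fun y y' => by
      simp [Pi.algebraMap_apply]⟩

variable {Hs}

theorem DeltaRep.add {φ ψ : M → Qb} (hφ : DeltaRep Hs φ) (hψ : DeltaRep Hs ψ) :
    DeltaRep Hs (φ + ψ) := by
  obtain ⟨ι, _, a, b, ha, hb, hab⟩ := hφ
  obtain ⟨ι', _, a', b', ha', hb', hab'⟩ := hψ
  refine ⟨ι ⊕ ι', inferInstance, Sum.elim a a', Sum.elim b b', ?_, ?_, fun y y' => ?_⟩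
  · rintro (j | j) <;> simp [ha, ha']
  · rintro (j | j) <;> simp [hb, hb']
  · rw [Fintype.sum_sum_type]
    simp only [Sum.elim_inl, Sum.elim_inr, Pi.add_apply, hab, hab']

theorem DeltaRep.mul {φ ψ : M → Qb} (hφ : DeltaRep Hs φ) (hψ : DeltaRep Hs ψ) :
    DeltaRep Hs (φ * ψ) := by
  obtain ⟨ι, _, a, b, ha, hb, hab⟩ := hφ
  obtain ⟨ι', _, a', b', ha', hb', hab'⟩ := hψ
  refine ⟨ι × ι', inferInstance, fun p => a p.1 * a' p.2, fun p => b p.1 * b' p.2,
    fun p => Hs.mul_mem (ha _) (ha' _), fun p => Hs.mul_mem (hb _) (hb' _), fun y y' => ?_⟩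
  rw [Pi.mul_apply, hab, hab', Fintype.sum_prod_type, Finset.sum_mul_sum]
  refine Finset.sum_congr rfl fun j _ => Finset.sum_congr rfl fun k _ => ?_
  simp only [Pi.mul_apply]
  ring

/-- closure under comultiplication may be checked on algebra generators -/
theorem deltaRep_of_adjoin {S : Set (M → Qb)} (hS : Algebra.adjoin (ratLocalizedAt ℓ) S = Hs)
    (h : ∀ φ ∈ S, DeltaRep Hs φ) : ∀ φ ∈ Hs, DeltaRep Hs φ := by
  intro φ hφ
  rw [← hS] at hφ
  induction hφ using Algebra.adjoin_induction with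
  | mem x hx => exact h x hx
  | algebraMap r => exact deltaRep_algebraMap Hs r
  | add x y _ _ hx hy => exact hx.add hy
  | mul x y _ _ hx hy => exact hx.mul hy

end DeltaRep

section Sub

variable {M X : Type} [AddCommGroup M] [AddCommGroup X]

/-- pulling back a Hopf order along an injective equivariant homomorphism -/
theorem isHopfOrder_pullback {act : GQ → M → M} {actX : GQ → X → X}
    {Hs : Subalgebra (ratLocalizedAt ℓ) (M → Qb)} (h : IsHopfOrder ℓ act Hs)
    (f : X →+ M) (hf : Function.Injective f) (hequiv : ∀ σ x, f (actX σ x) = act σ (f x)) :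
    IsHopfOrder ℓ actX (Hs.map (pullbackHom ℓ f)) where
  equivariant := by
    rintro ψ ⟨φ, hφ, rfl⟩ σ x
    show φ (f (actX σ x)) = σ (φ (f x))
    rw [hequiv, h.equivariant φ hφ]
  fg := by
    have := h.fg.map (pullbackHom ℓ (f : X → M)).toLinearMap
    rwa [← Subalgebra.map_toSubmodule] at this
  separates := by
    intro x x' hxx'
    obtain ⟨φ, hφ, hne⟩ := h.separates (f x) (f x') (fun hh => hxx' (hf hh))
    exact ⟨pullbackHom ℓ f φ, ⟨φ, hφ, rfl⟩, hne⟩
  comul := by
    rintro ψ ⟨φ, hφ, rfl⟩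
    obtain ⟨n, a, b, ha, hb, hab⟩ := h.comul φ hφ
    refine ⟨n, fun j => pullbackHom ℓ f (a j), fun j => pullbackHom ℓ f (b j),
      fun j => ⟨a j, ha j, rfl⟩, fun j => ⟨b j, hb j, rfl⟩, fun x x' => ?_⟩
    show φ (f (x + x')) = ∑ j, a j (f x) * b j (f x')
    rw [map_add, hab]

/-- Hopf orders restrict to Galois-stable subgroups -/
theorem HasHopfOrder.subgroup {act : GQ → M → M} (N : AddSubgroup M)
    (hN : ∀ σ, ∀ y ∈ N, act σ y ∈ N) (h : HasHopfOrder ℓ act) :
    HasHopfOrder ℓ (fun σ (y : N) => (⟨act σ y, hN σ y y.2⟩ : N)) := by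
  obtain ⟨Hs, hHs⟩ := h
  exact ⟨_, isHopfOrder_pullback hHs N.subtype Subtype.val_injective (fun _ _ => rfl)⟩

/-- Hopf orders transport along equivariant isomorphisms -/
theorem HasHopfOrder.of_equiv {act : GQ → M → M} {actX : GQ → X → X} (e : M ≃+ X)
    (he : ∀ σ y, e (act σ y) = actX σ (e y)) (h : HasHopfOrder ℓ act) :
    HasHopfOrder ℓ actX := by
  obtain ⟨Hs, hHs⟩ := h
  refine ⟨_, isHopfOrder_pullback hHs (e.symm : X →+ M) e.symm.injective (fun σ x => ?_)⟩
  apply e.injective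
  simp [he]

end Sub

section Prod

variable {M M' : Type} [AddCommGroup M] [AddCommGroup M']

/-- elements of `ℤ_(ℓ)` are fixed by the Galois group -/
theorem galois_algebraMap (σ : GQ) (r : ratLocalizedAt ℓ) :
    σ (algebraMap (ratLocalizedAt ℓ) Qb r) = algebraMap (ratLocalizedAt ℓ) Qb r := by
  have h1 : algebraMap (ratLocalizedAt ℓ) Qb r = algebraMap ℚ Qb (r : ℚ) := rfl
  rw [h1, σ.commutes]

theorem fg_toSubmodule_iff {X : Type} (E : Subalgebra (ratLocalizedAt ℓ) (X → Qb)) :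
    (Subalgebra.toSubmodule E).FG ↔ Module.Finite (ratLocalizedAt ℓ) E :=
  ⟨fun h => ⟨(Submodule.fg_top _).2 h⟩, fun h => (Submodule.fg_top _).1 h.1⟩

/-- Hopf orders on products -/
theorem HasHopfOrder.prod {act : GQ → M → M} {act' : GQ → M' → M'}
    (h : HasHopfOrder ℓ act) (h' : HasHopfOrder ℓ act') :
    HasHopfOrder ℓ (fun σ (p : M × M') => (act σ p.1, act' σ p.2)) := by
  obtain ⟨Hs, hH⟩ := h
  obtain ⟨Hs', hH'⟩ := h'
  let E1 : Subalgebra (ratLocalizedAt ℓ) (M × M' → Qb) :=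
    Hs.map (pullbackHom ℓ (Prod.fst : M × M' → M))
  let E2 : Subalgebra (ratLocalizedAt ℓ) (M × M' → Qb) :=
    Hs'.map (pullbackHom ℓ (Prod.snd : M × M' → M'))
  have hadj : Algebra.adjoin (ratLocalizedAt ℓ) ((E1 : Set (M × M' → Qb)) ∪ E2) = E1 ⊔ E2 := by
    rw [Algebra.adjoin_union, Algebra.adjoin_eq, Algebra.adjoin_eq]
  have hE1 : E1 ≤ E1 ⊔ E2 := le_sup_left
  have hE2 : E2 ≤ E1 ⊔ E2 := le_sup_right
  refine ⟨E1 ⊔ E2, ?_, ?_, ?_, ?_⟩
  · -- equivariance
    intro φ hφ
    rw [← hadj] at hφ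
    induction hφ using Algebra.adjoin_induction with
    | mem x hx =>
      intro σ p
      rcases hx with hx | hx
      · obtain ⟨φ₁, hφ₁, rfl⟩ := hx
        exact hH.equivariant φ₁ hφ₁ σ p.1
      · obtain ⟨φ₂, hφ₂, rfl⟩ := hx
        exact hH'.equivariant φ₂ hφ₂ σ p.2
    | algebraMap r =>
      intro σ p
      exact (galois_algebraMap σ r).symm
    | add x y _ _ hx hy =>
      intro σ p
      rw [Pi.add_apply, Pi.add_apply, hx, hy, map_add]
    | mul x y _ _ hx hy =>
      intro σ p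
      rw [Pi.mul_apply, Pi.mul_apply, hx, hy, map_mul]
  · -- finiteness
    have f1 : Module.Finite (ratLocalizedAt ℓ) E1 := by
      rw [← fg_toSubmodule_iff, Subalgebra.map_toSubmodule]
      exact hH.fg.map _
    have f2 : Module.Finite (ratLocalizedAt ℓ) E2 := by
      rw [← fg_toSubmodule_iff, Subalgebra.map_toSubmodule]
      exact hH'.fg.map _
    rw [fg_toSubmodule_iff]
    exact Subalgebra.finite_sup E1 E2
  · -- separation
    rintro ⟨y, z⟩ ⟨y', z'⟩ hne
    by_cases hy : y = y'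
    · have hz : z ≠ z' := fun hz => hne (by rw [hy, hz])
      obtain ⟨φ, hφ, hφne⟩ := hH'.separates z z' hz
      exact ⟨pullbackHom ℓ Prod.snd φ, hE2 ⟨φ, hφ, rfl⟩, hφne⟩
    · obtain ⟨φ, hφ, hφne⟩ := hH.separates y y' hy
      exact ⟨pullbackHom ℓ Prod.fst φ, hE1 ⟨φ, hφ, rfl⟩, hφne⟩
  · -- comultiplication
    intro φ hφ
    refine (deltaRep_of_adjoin hadj ?_ φ hφ).to_fin
    rintro x (hx | hx)
    · obtain ⟨φ₁, hφ₁, rfl⟩ := hx
      obtain ⟨n, a, b, ha, hb, hab⟩ := hH.comul φ₁ hφ₁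
      exact ⟨Fin n, inferInstance, fun j => pullbackHom ℓ Prod.fst (a j),
        fun j => pullbackHom ℓ Prod.fst (b j), fun j => hE1 ⟨a j, ha j, rfl⟩,
        fun j => hE1 ⟨b j, hb j, rfl⟩, fun p p' => hab p.1 p'.1⟩
    · obtain ⟨φ₂, hφ₂, rfl⟩ := hx
      obtain ⟨n, a, b, ha, hb, hab⟩ := hH'.comul φ₂ hφ₂
      exact ⟨Fin n, inferInstance, fun j => pullbackHom ℓ Prod.snd (a j),
        fun j => pullbackHom ℓ Prod.snd (b j), fun j => hE2 ⟨a j, ha j, rfl⟩,
        fun j => hE2 ⟨b j, hb j, rfl⟩, fun p p' => hab p.2 p'.2⟩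

end Prod

section Pi

variable {M : Type} [AddCommGroup M]

/-- the trivial group carries a Hopf order (the constants `ℤ_(ℓ)`) -/
theorem hasHopfOrder_of_subsingleton [Subsingleton M] (act : GQ → M → M) :
    HasHopfOrder ℓ act := by
  refine ⟨⊥, ?_, ?_, ?_, ?_⟩
  · intro φ hφ σ y
    obtain ⟨r, rfl⟩ := Algebra.mem_bot.1 hφ
    exact (galois_algebraMap σ r).symm
  · rw [Algebra.toSubmodule_bot, Submodule.one_eq_span]
    exact Submodule.fg_span_singleton _
  · intro y y' hne
    exact absurd (Subsingleton.elim y y') hne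
  · intro φ hφ
    obtain ⟨r, rfl⟩ := Algebra.mem_bot.1 hφ
    exact (deltaRep_algebraMap ⊥ r).to_fin

/-- Hopf orders on finite powers -/
theorem HasHopfOrder.pi {act : GQ → M → M} (h : HasHopfOrder ℓ act) (r : ℕ) :
    HasHopfOrder ℓ (fun σ (v : Fin r → M) (i : Fin r) => act σ (v i)) := by
  induction r with
  | zero => exact hasHopfOrder_of_subsingleton _
  | succ r ih =>
    refine HasHopfOrder.of_equiv
      ((Fin.consLinearEquiv ℤ (fun _ : Fin (r + 1) => M)).toAddEquiv) ?_ (h.prod ih)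
    intro σ p
    funext i
    refine Fin.cases ?_ (fun j => ?_) i
    · rfl
    · rfl

end Pi

section GalAction

variable {M X : Type} [AddCommGroup M] [AddCommGroup X]

theorem isGalAction_subgroup {act : GQ → M → M} (hact : IsGalAction act) (N : AddSubgroup M)
    (hN : ∀ σ, ∀ y ∈ N, act σ y ∈ N) :
    IsGalAction (fun σ (y : N) => (⟨act σ y, hN σ y y.2⟩ : N)) where
  one y := Subtype.ext (hact.one y)
  mul σ τ y := Subtype.ext (hact.mul σ τ y)
  add σ y y' := Subtype.ext (hact.add σ y y')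

theorem isGalAction_of_equiv {act : GQ → M → M} {actX : GQ → X → X} (hact : IsGalAction act)
    (e : M ≃+ X) (he : ∀ σ y, e (act σ y) = actX σ (e y)) : IsGalAction actX where
  one x := by
    have := he 1 (e.symm x)
    rw [hact.one, e.apply_symm_apply] at this
    exact this.symm
  mul σ τ x := by
    have h1 := he (σ * τ) (e.symm x)
    rw [hact.mul, he, he, e.apply_symm_apply] at h1
    exact h1.symm
  add σ x x' := by
    have h1 := he σ (e.symm x + e.symm x')
    rw [hact.add, map_add, map_add, he, he, e.apply_symm_apply, e.apply_symm_apply] at h1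
    exact h1.symm

theorem isGalAction_prod {act : GQ → M → M} {actX : GQ → X → X} (hact : IsGalAction act)
    (hactX : IsGalAction actX) :
    IsGalAction (fun σ (p : M × X) => (act σ p.1, actX σ p.2)) where
  one p := Prod.ext (hact.one p.1) (hactX.one p.2)
  mul σ τ p := Prod.ext (hact.mul σ τ p.1) (hactX.mul σ τ p.2)
  add σ p p' := Prod.ext (hact.add σ p.1 p'.1) (hactX.add σ p.2 p'.2)

theorem isGalAction_pi {act : GQ → M → M} (hact : IsGalAction act) (r : ℕ) :
    IsGalAction (fun σ (v : Fin r → M) (i : Fin r) => act σ (v i)) where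
  one v := funext fun i => hact.one (v i)
  mul σ τ v := funext fun i => hact.mul σ τ (v i)
  add σ v v' := funext fun i => hact.add σ (v i) (v' i)

/-- the action induced on a quotient by a Galois-stable subgroup -/
def quotAct (act : GQ → M → M) (hadd : ∀ σ y y', act σ (y + y') = act σ y + act σ y')
    (N : AddSubgroup M) (hN : ∀ σ, ∀ y ∈ N, act σ y ∈ N) : GQ → M ⧸ N → M ⧸ N :=
  fun σ => QuotientAddGroup.map N N (AddMonoidHom.mk' (act σ) (hadd σ)) (fun y hy => hN σ y hy)

@[simp] theorem quotAct_mk (act : GQ → M → M)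
    (hadd : ∀ σ y y', act σ (y + y') = act σ y + act σ y') (N : AddSubgroup M)
    (hN : ∀ σ, ∀ y ∈ N, act σ y ∈ N) (σ : GQ) (y : M) :
    quotAct act hadd N hN σ (QuotientAddGroup.mk y) = QuotientAddGroup.mk (act σ y) := rfl

theorem isGalAction_quotAct {act : GQ → M → M} (hact : IsGalAction act) (N : AddSubgroup M)
    (hN : ∀ σ, ∀ y ∈ N, act σ y ∈ N) : IsGalAction (quotAct act hact.add N hN) where
  one q := by
    induction q using QuotientAddGroup.induction_on with
    | H y => rw [quotAct_mk, hact.one]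
  mul σ τ q := by
    induction q using QuotientAddGroup.induction_on with
    | H y => rw [quotAct_mk, quotAct_mk, quotAct_mk, hact.mul]
  add σ q q' := map_add _ q q'

end GalAction

end Fermat.Agent.S19.Base
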