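/-
S19 / S32, abstract block (helper17): the converse of `Abs.hasHopfModel_of_isHopfOrder`.

A Hopf model `H` of `(M, act)` (frozen `∃`-shape of S19 / `IsFlatAt`) gives a Hopf order: the image
of `H` in `Map(M, ℚ̄)` under `h ↦ (y ↦ (e.symm y) h)`.  Hence "has a Hopf model" and "has a Hopf
order" are equivalent for finite `M`, and the stability results of `Stability.lean` /
`Quotient.lean` apply to Hopf models.
-/
import Mathlib
import Fermat.Agent.S19.Base.Stability
import Fermat.Agent.S19.Abs.HopfOfOrder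

set_option autoImplicit false

namespace Fermat.Agent.S19.Base

open GaloisRep Fermat.Agent.S19.Abs

/-- a Galois automorphism as a `ℤ_(ℓ)`-algebra homomorphism -/
noncomputable def galAlgHom (ℓ : ℕ) (σ : GQ) : Qb →ₐ[ratLocalizedAt ℓ] Qb :=
  { (σ : Qb →+* Qb) with
    commutes' := fun r => galois_algebraMap σ r }

@[simp] theorem galAlgHom_apply (ℓ : ℕ) (σ : GQ) (x : Qb) : galAlgHom ℓ σ x = σ x := rfl

/-- **Hopf models give Hopf orders.** -/
theorem hasHopfOrder_of_hasHopfModel {ℓ : ℕ} {M : Type} [AddCommGroup M] {act : GQ → M → M}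
    (h : HasHopfModel ℓ act) : HasHopfOrder ℓ act := by
  classical
  obtain ⟨H, instR, instH, hfin, -, -, e, hadd, hequiv⟩ := h
  -- the map `H → Map(M, ℚ̄)`
  let Θ : H →ₐ[ratLocalizedAt ℓ] (M → Qb) :=
    AlgHom.pi (fun y : M => (e.symm y).ofConv)
  have hΘ : ∀ (x : H) (y : M), Θ x y = (e.symm y).ofConv x := fun _ _ => rfl
  have hmul : ∀ y y' : M, e.symm (y + y') = e.symm y * e.symm y' := by
    intro y y'
    rw [Equiv.symm_apply_eq, hadd, Equiv.apply_symm_apply, Equiv.apply_symm_apply]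
  refine ⟨Θ.range, ?_, ?_, ?_, ?_⟩
  · -- equivariance
    rintro φ ⟨x, rfl⟩ σ y
    have h1 := hequiv σ (e.symm y) (WithConv.toConv ((galAlgHom ℓ σ).comp (e.symm y).ofConv))
      (fun x' => rfl)
    rw [Equiv.apply_symm_apply] at h1
    have h2 : e.symm (act σ y) = WithConv.toConv ((galAlgHom ℓ σ).comp (e.symm y).ofConv) := by
      rw [Equiv.symm_apply_eq, h1]
    show Θ x (act σ y) = σ (Θ x y)
    rw [hΘ, hΘ, h2]
    rfl
  · -- finiteness
    have h1 : Subalgebra.toSubmodule Θ.range = LinearMap.range Θ.toLinearMap := rfl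
    rw [h1, LinearMap.range_eq_map]
    exact (Module.Finite.fg_top (R := ratLocalizedAt ℓ) (M := H)).map _
  · -- separation
    intro y y' hne
    by_contra hcon
    push Not at hcon
    apply hne
    apply e.symm.injective
    apply WithConv.ofConv_injective
    refine AlgHom.ext fun x => ?_
    exact hcon (Θ x) ⟨x, rfl⟩
  · -- comultiplication
    rintro φ ⟨x, rfl⟩
    obtain ⟨S, hS⟩ := TensorProduct.exists_finset (Coalgebra.comul (R := ratLocalizedAt ℓ) x)
    refine DeltaRep.to_fin ⟨S, inferInstance, fun i => Θ i.1.1, fun i => Θ i.1.2,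
      fun i => ⟨_, rfl⟩, fun i => ⟨_, rfl⟩, fun y y' => ?_⟩
    show Θ x (y + y') = ∑ i : S, Θ i.1.1 y * Θ i.1.2 y'
    rw [hΘ, hmul]
    have h1 := AlgHom.convMul_apply (e.symm y) (e.symm y') x
    have h2 : (e.symm y * e.symm y').ofConv x = (e.symm y * e.symm y') x := rfl
    rw [h2, h1, hS, map_sum, ← Finset.sum_coe_sort S]
    refine Finset.sum_congr rfl fun i _ => ?_
    rw [Algebra.TensorProduct.lift_tmul]
    rfl

/-- for finite `M`, Hopf orders and Hopf models are equivalent -/
theorem hasHopfOrder_iff_hasHopfModel {ℓ : ℕ} [Fact ℓ.Prime] {M : Type} [AddCommGroup M]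
    [Finite M] {act : GQ → M → M} (hact : IsGalAction act) :
    HasHopfOrder ℓ act ↔ HasHopfModel ℓ act :=
  ⟨fun ⟨_, h⟩ => hasHopfModel_of_isHopfOrder ℓ hact h, hasHopfOrder_of_hasHopfModel⟩

end Fermat.Agent.S19.Base
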