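/-
S19 / S32 (helper17): the frozen conclusion of S19 for `J₀(p)[ℓ^k]` gives a Hopf order on
`Abs.Tors p ℓ k` with the action `Abs.torsAct`.  (So S32 may start from the *statement* of S19.)
-/
import Mathlib
import Fermat.Agent.S19.Base.OfModel
import Fermat.Agent.S19.Abs.Torsion

set_option autoImplicit false

namespace Fermat.Agent.S19.Base

open GaloisRep ModularCurve Fermat.Agent.S19.Abs

/-- the frozen conclusion of S19 is a Hopf model of `(Tors p ℓ k, torsAct p ℓ k)` -/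
theorem hasHopfModel_tors_of_s19 (p ℓ k : ℕ)
    (h : ∃ (H : Type) (_ : CommRing H) (_ : HopfAlgebra (GaloisRep.ratLocalizedAt ℓ) H),
      Module.Finite (GaloisRep.ratLocalizedAt ℓ) H ∧ Module.Flat (GaloisRep.ratLocalizedAt ℓ) H ∧
      Coalgebra.IsCocomm (GaloisRep.ratLocalizedAt ℓ) H ∧
      ∃ e : WithConv (H →ₐ[GaloisRep.ratLocalizedAt ℓ] AlgebraicClosure ℚ) ≃
          ↥(Submodule.torsionBy ℤ (JZero p) ((ℓ : ℤ) ^ k)),
        (∀ f g, e (f * g) = e f + e g) ∧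
        ∀ (σ : AlgebraicClosure ℚ ≃ₐ[ℚ] AlgebraicClosure ℚ)
          (f g : WithConv (H →ₐ[GaloisRep.ratLocalizedAt ℓ] AlgebraicClosure ℚ)),
          (∀ h : H, g h = σ (f h)) → ((e g : JZero p)) = σ • (e f : JZero p)) :
    HasHopfModel ℓ (torsAct p ℓ k) := by
  obtain ⟨H, i1, i2, h1, h2, h3, e, he1, he2⟩ := h
  exact ⟨H, i1, i2, h1, h2, h3, e, he1, fun σ f g hfg => Subtype.ext (he2 σ f g hfg)⟩

/-- the frozen conclusion of S19 gives a Hopf order on the torsion -/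
theorem hasHopfOrder_tors_of_s19 (p ℓ k : ℕ)
    (h : ∃ (H : Type) (_ : CommRing H) (_ : HopfAlgebra (GaloisRep.ratLocalizedAt ℓ) H),
      Module.Finite (GaloisRep.ratLocalizedAt ℓ) H ∧ Module.Flat (GaloisRep.ratLocalizedAt ℓ) H ∧
      Coalgebra.IsCocomm (GaloisRep.ratLocalizedAt ℓ) H ∧
      ∃ e : WithConv (H →ₐ[GaloisRep.ratLocalizedAt ℓ] AlgebraicClosure ℚ) ≃
          ↥(Submodule.torsionBy ℤ (JZero p) ((ℓ : ℤ) ^ k)),
        (∀ f g, e (f * g) = e f + e g) ∧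
        ∀ (σ : AlgebraicClosure ℚ ≃ₐ[ℚ] AlgebraicClosure ℚ)
          (f g : WithConv (H →ₐ[GaloisRep.ratLocalizedAt ℓ] AlgebraicClosure ℚ)),
          (∀ h : H, g h = σ (f h)) → ((e g : JZero p)) = σ • (e f : JZero p)) :
    HasHopfOrder ℓ (torsAct p ℓ k) :=
  hasHopfOrder_of_hasHopfModel (hasHopfModel_tors_of_s19 p ℓ k h)

end Fermat.Agent.S19.Base
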