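/-
S19 / S32, abstract block (helper17): Hopf orders pass to quotients by Galois-stable subgroups.

`Hs ⊂ Map(M, ℚ̄)` a Hopf order, `N ≤ M` a Galois-stable subgroup.  The order on `M ⧸ N` is
`{ψ | ψ ∘ π ∈ Hs}`, i.e. the `N`-invariant functions of `Hs`.

* separation: the coset traces `x ↦ ∑_{n ∈ N} φ (x + n)` of `φ ∈ Hs` lie in `Hs` (their
  coefficients `∑_n b_j n` are Galois-fixed and integral, hence in `ℤ_(ℓ)`), and they separate the
  cosets by independence of characters;
* comultiplication: two changes of `ℤ_(ℓ)`-basis and Artin's lemma (`Abs.linearIndependent_Qb`)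
  show that the comultiplication of an invariant function can be written with invariant functions.
-/
import Mathlib
import Fermat.Agent.S19.Abs.Order
import Fermat.Agent.S19.Base.Counit
import Fermat.Agent.S19.Base.Stability

set_option autoImplicit false

namespace Fermat.Agent.S19.Base

open GaloisRep Fermat.Agent.S19.Abs

variable {ℓ : ℕ} [Fact ℓ.Prime] {M : Type} [AddCommGroup M] {act : GQ → M → M}
  {Hs : Subalgebra (ratLocalizedAt ℓ) (M → Qb)}

/-- a Galois-fixed element of `ℚ̄` which is integral over `ℤ_(ℓ)` lies in `ℤ_(ℓ)` -/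
theorem exists_ratLocalizedAt_of_fixed_of_isIntegral (z : Qb) (hfix : ∀ σ : GQ, σ z = z)
    (hint : IsIntegral (ratLocalizedAt ℓ) z) :
    ∃ r : ratLocalizedAt ℓ, z = algebraMap (ratLocalizedAt ℓ) Qb r := by
  obtain ⟨q, hq⟩ := Fermat.Agent.S51.exists_rat_of_fixed z hfix
  rw [← hq] at hint
  exact ⟨⟨q, mem_ratLocalizedAt_of_isIntegral ℓ q hint⟩, hq.symm⟩

omit [Fact ℓ.Prime] in
/-- values of functions of a Hopf order are integral over `ℤ_(ℓ)` -/
theorem isIntegral_apply (h : IsHopfOrder ℓ act Hs) {φ : M → Qb} (hφ : φ ∈ Hs) (y : M) :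
    IsIntegral (ratLocalizedAt ℓ) (φ y) :=
  (IsIntegral.of_mem_of_fg Hs h.fg φ hφ).map
    (Pi.evalAlgHom (ratLocalizedAt ℓ) (fun _ : M => Qb) y)

/-- invariance of a function under translation by a subgroup -/
def IsInv (N : AddSubgroup M) (φ : M → Qb) : Prop := ∀ y, ∀ n ∈ N, φ (y + n) = φ y

theorem IsInv.exists_desc {N : AddSubgroup M} {φ : M → Qb} (h : IsInv N φ) :
    ∃ ψ : M ⧸ N → Qb, ∀ y, ψ (QuotientAddGroup.mk y) = φ y := by
  refine ⟨fun q => Quotient.liftOn' q φ ?_, fun y => rfl⟩
  intro a b hab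
  rw [QuotientAddGroup.leftRel_apply] at hab
  have := h a (-a + b) hab
  rw [add_neg_cancel_left] at this
  exact this.symm

theorem isInv_comp_mk (N : AddSubgroup M) (ψ : M ⧸ N → Qb) :
    IsInv N (fun y => ψ (QuotientAddGroup.mk y)) := by
  intro y n hn
  show ψ _ = ψ _
  congr 1
  rw [QuotientAddGroup.eq]
  simpa using hn

section Trace

variable (N : AddSubgroup M) [Fintype N]

/-- the coset trace is invariant -/
theorem isInv_cosetSum (φ : M → Qb) : IsInv N (fun x => ∑ n : N, φ (x + n)) := by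
  intro y m hm
  show ∑ n : N, φ (y + m + n) = ∑ n : N, φ (y + n)
  have := Equiv.sum_comp (Equiv.addLeft (⟨m, hm⟩ : N)) (fun n : N => φ (y + n))
  rw [← this]
  refine Finset.sum_congr rfl fun n _ => ?_
  simp [add_assoc]

/-- the coset trace of an element of a Hopf order lies in the order -/
theorem cosetSum_mem (hact : IsGalAction act) (h : IsHopfOrder ℓ act Hs)
    (hN : ∀ σ, ∀ y ∈ N, act σ y ∈ N) {φ : M → Qb} (hφ : φ ∈ Hs) :
    (fun x => ∑ n : N, φ (x + n)) ∈ Hs := by
  obtain ⟨k, a, b, ha, hb, hab⟩ := h.comul φ hφ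
  -- the Galois group permutes `N`
  have hperm : ∀ σ : GQ, ∃ e : N ≃ N, ∀ n : N, ((e n : N) : M) = act σ n := by
    intro σ
    refine ⟨⟨fun n => ⟨act σ n, hN σ n n.2⟩, fun n => ⟨act σ⁻¹ n, hN σ⁻¹ n n.2⟩, ?_, ?_⟩,
      fun n => rfl⟩
    · intro n
      apply Subtype.ext
      show act σ⁻¹ (act σ n) = n
      rw [← hact.mul, inv_mul_cancel, hact.one]
    · intro n
      apply Subtype.ext
      show act σ (act σ⁻¹ n) = n
      rw [← hact.mul, mul_inv_cancel, hact.one]
  have hcoef : ∀ j, ∃ r : ratLocalizedAt ℓ,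
      ∑ n : N, b j n = algebraMap (ratLocalizedAt ℓ) Qb r := by
    intro j
    refine exists_ratLocalizedAt_of_fixed_of_isIntegral _ (fun σ => ?_) ?_
    · obtain ⟨e, he⟩ := hperm σ
      rw [map_sum, ← Equiv.sum_comp e (fun n : N => b j n)]
      refine Finset.sum_congr rfl fun n _ => ?_
      rw [he, h.equivariant _ (hb j)]
    · exact IsIntegral.sum _ fun n _ => isIntegral_apply h (hb j) _
  choose r hr using hcoef
  have heq : (fun x => ∑ n : N, φ (x + n)) = ∑ j, r j • a j := by
    funext x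
    rw [Finset.sum_apply]
    simp only [hab, Pi.smul_apply, Algebra.smul_def]
    rw [Finset.sum_comm]
    refine Finset.sum_congr rfl fun j _ => ?_
    rw [← Finset.mul_sum, hr j, mul_comm]
  rw [heq]
  exact Subalgebra.sum_mem _ fun j _ => Subalgebra.smul_mem _ (ha j) _

omit [Fact ℓ.Prime] in
/-- the coset traces separate the cosets -/
theorem exists_cosetSum_ne (h : IsHopfOrder ℓ act Hs) {x x' : M} (hxx' : x - x' ∉ N) :
    ∃ φ ∈ Hs, ∑ n : N, φ (x + n) ≠ ∑ n : N, φ (x' + n) := by
  classical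
  by_contra hcon
  push Not at hcon
  -- the evaluation characters
  let χ : M → (Hs →* Qb) := fun y => (ev Hs y : Hs →* Qb)
  have hχ : Function.Injective χ := by
    intro y y' hyy'
    by_contra hne
    obtain ⟨φ, hφ, hφne⟩ := h.separates y y' hne
    exact hφne (DFunLike.congr_fun hyy' (⟨φ, hφ⟩ : Hs))
  let pt : N ⊕ N → M := Sum.elim (fun n => x + n) (fun n => x' + n)
  have hpt : Function.Injective pt := by
    rintro (n | n) (m | m) hnm
    · have : (n : M) = m := add_left_cancel hnm
      rw [Subtype.ext this]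
    · exfalso
      apply hxx'
      have h1 : x + n = x' + m := hnm
      have h2 : x - x' = m - n := by
        rw [sub_eq_sub_iff_add_eq_add, h1, add_comm]
      rw [h2]
      exact N.sub_mem m.2 n.2
    · exfalso
      apply hxx'
      have h1 : x' + n = x + m := hnm
      have h2 : x - x' = n - m := by
        rw [sub_eq_sub_iff_add_eq_add, ← h1, add_comm]
      rw [h2]
      exact N.sub_mem n.2 m.2
    · have : (n : M) = m := add_left_cancel hnm
      rw [Subtype.ext this]
  have hli : LinearIndependent Qb (fun s : N ⊕ N => (χ (pt s) : Hs → Qb)) :=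
    (linearIndependent_monoidHom Hs Qb).comp (χ ∘ pt) (hχ.comp hpt)
  rw [Fintype.linearIndependent_iff] at hli
  have h0 := hli (Sum.elim (fun _ => 1) (fun _ => -1)) (by
    funext φ
    rw [Fintype.sum_sum_type]
    simp only [Sum.elim_inl, Sum.elim_inr, one_smul, neg_smul, Finset.sum_neg_distrib,
      Pi.add_apply, Pi.neg_apply, Finset.sum_apply, Pi.zero_apply]
    have := hcon φ.1 φ.2
    show ∑ n : N, (φ : M → Qb) (x + n) + -∑ n : N, (φ : M → Qb) (x' + n) = 0
    rw [this, add_neg_cancel]) (Sum.inl 0)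
  simp at h0

end Trace

section Comul

/-- Artin's lemma in the form used below: if `∑ₜ g t z * u t y'` is `N`-invariant in `z` and the
`u t` are `ℤ_(ℓ)`-independent elements of the order, every `g t` is `N`-invariant -/
theorem isInv_of_sum_mul {T : Type} [Fintype T] (hact : IsGalAction act)
    (h : IsHopfOrder ℓ act Hs) (N : AddSubgroup M) (u : T → M → Qb) (hu : ∀ t, u t ∈ Hs)
    (hli : LinearIndependent (ratLocalizedAt ℓ) u) (g : T → M → Qb)
    (hrel : ∀ z, ∀ n ∈ N, ∀ y', ∑ t, g t (z + n) * u t y' = ∑ t, g t z * u t y') :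
    ∀ t, IsInv N (g t) := by
  have hQ := linearIndependent_Qb ℓ hact.surj u (fun t σ y => h.equivariant _ (hu t) σ y) hli
  rw [Fintype.linearIndependent_iff] at hQ
  intro t z n hn
  have := hQ (fun t => g t (z + n) - g t z) (by
    funext y'
    simp only [Finset.sum_apply, Pi.smul_apply, smul_eq_mul, sub_mul, Finset.sum_sub_distrib,
      Pi.zero_apply]
    rw [hrel z n hn y', sub_self]) t
  exact sub_eq_zero.1 this

omit [AddCommGroup M] in
theorem isTorsionFree_fun : Module.IsTorsionFree (ratLocalizedAt ℓ) (M → Qb) := by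
  refine Module.IsTorsionFree.of_smul_eq_zero fun r φ hr => ?_
  by_cases h0 : r = 0
  · exact Or.inl h0
  · right
    funext y
    have h1 : (r • φ) y = 0 := by rw [hr]; rfl
    rw [Pi.smul_apply, Algebra.smul_def, mul_eq_zero] at h1
    rcases h1 with h1 | h1
    · exact absurd (algebraMap_injective_Qb (by rw [h1, map_zero])) h0
    · exact h1

omit [AddCommGroup M] in
/-- a finitely generated `ℤ_(ℓ)`-module of functions has a finite basis -/
theorem exists_basis_family (S : Submodule (ratLocalizedAt ℓ) (M → Qb)) (hS : S.FG) :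
    ∃ (T : Type) (_ : Fintype T) (u : T → M → Qb), (∀ t, u t ∈ S) ∧
      LinearIndependent (ratLocalizedAt ℓ) u ∧
      ∀ φ ∈ S, ∃ c : T → ratLocalizedAt ℓ, φ = ∑ t, c t • u t := by
  have : Module.Finite (ratLocalizedAt ℓ) S := Module.Finite.iff_fg.mpr hS
  have : Module.IsTorsionFree (ratLocalizedAt ℓ) (M → Qb) := isTorsionFree_fun
  have : Module.IsTorsionFree (ratLocalizedAt ℓ) S := inferInstance
  have : Module.Free (ratLocalizedAt ℓ) S :=
    Module.free_of_finite_type_torsion_free' (R := ratLocalizedAt ℓ) (M := S)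
  let b := Module.Free.chooseBasis (ratLocalizedAt ℓ) S
  refine ⟨_, inferInstance, fun t => ((b t : S) : M → Qb), fun t => (b t).2,
    b.linearIndependent.map' S.subtype (Submodule.ker_subtype _), fun φ hφ => ?_⟩
  refine ⟨fun t => b.repr ⟨φ, hφ⟩ t, ?_⟩
  have h1 := congrArg (fun ψ : S => (ψ : M → Qb)) (b.sum_repr ⟨φ, hφ⟩)
  simp only [Submodule.coe_sum, Submodule.coe_smul] at h1
  exact h1.symm

omit [Fact ℓ.Prime] [AddCommGroup M] in
/-- change of the right-hand family in a sum of products -/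
theorem exists_rewrite {J T : Type} [Fintype J] [Fintype T] (a b : J → M → Qb) (u : T → M → Qb)
    (hb : ∀ j, ∃ c : T → ratLocalizedAt ℓ, b j = ∑ t, c t • u t) :
    ∃ g : T → M → Qb, (∀ t, g t ∈ Submodule.span (ratLocalizedAt ℓ) (Set.range a)) ∧
      ∀ y y', ∑ j, a j y * b j y' = ∑ t, g t y * u t y' := by
  choose c hc using hb
  refine ⟨fun t => ∑ j, c j t • a j, fun t => ?_, fun y y' => ?_⟩
  · exact Submodule.sum_mem _ fun j _ =>
      Submodule.smul_mem _ _ (Submodule.subset_span ⟨j, rfl⟩)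
  · have h2 : ∀ j, b j y' = ∑ t, algebraMap (ratLocalizedAt ℓ) Qb (c j t) * u t y' := by
      intro j
      rw [hc j, Finset.sum_apply]
      refine Finset.sum_congr rfl fun t _ => ?_
      rw [Pi.smul_apply, Algebra.smul_def]
    have h3 : ∀ t, (∑ j, c j t • a j) y = ∑ j, algebraMap (ratLocalizedAt ℓ) Qb (c j t) * a j y := by
      intro t
      rw [Finset.sum_apply]
      refine Finset.sum_congr rfl fun j _ => ?_
      rw [Pi.smul_apply, Algebra.smul_def]
    simp_rw [h2, h3, Finset.mul_sum, Finset.sum_mul]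
    rw [Finset.sum_comm]
    refine Finset.sum_congr rfl fun t _ => Finset.sum_congr rfl fun j _ => ?_
    ring

/-- the comultiplication of an `N`-invariant element of a Hopf order can be written with
`N`-invariant elements of the order -/
theorem exists_invariant_comul (hact : IsGalAction act) (h : IsHopfOrder ℓ act Hs)
    (N : AddSubgroup M) {φ : M → Qb} (hφ : φ ∈ Hs) (hinv : IsInv N φ) :
    ∃ (ι : Type) (_ : Fintype ι) (a b : ι → M → Qb), (∀ j, a j ∈ Hs) ∧ (∀ j, IsInv N (a j)) ∧
      (∀ j, b j ∈ Hs) ∧ (∀ j, IsInv N (b j)) ∧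
      ∀ y y' : M, φ (y + y') = ∑ j, a j y * b j y' := by
  classical
  -- a basis of the order
  obtain ⟨T, _, u, hu, hli_u, hspan_u⟩ := exists_basis_family (Subalgebra.toSubmodule Hs) h.fg
  -- the submodule of invariant functions, and a basis of it
  let P : Submodule (ratLocalizedAt ℓ) (M → Qb) :=
    { carrier := {ψ | ψ ∈ Hs ∧ IsInv N ψ}
      zero_mem' := ⟨Hs.zero_mem, fun _ _ _ => rfl⟩
      add_mem' := fun {ψ ψ'} hψ hψ' => ⟨Hs.add_mem hψ.1 hψ'.1, fun y n hn => by
        rw [Pi.add_apply, Pi.add_apply, hψ.2 y n hn, hψ'.2 y n hn]⟩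
      smul_mem' := fun c ψ hψ => ⟨Hs.smul_mem hψ.1 c, fun y n hn => by
        rw [Pi.smul_apply, Pi.smul_apply, hψ.2 y n hn]⟩ }
  have hPle : P ≤ Subalgebra.toSubmodule Hs := fun ψ hψ => hψ.1
  have hPfg : P.FG := by
    have : IsNoetherian (ratLocalizedAt ℓ) (Subalgebra.toSubmodule Hs) :=
      isNoetherian_of_fg_of_noetherian _ h.fg
    exact (isNoetherian_submodule (N := Subalgebra.toSubmodule Hs)).1 inferInstance P hPle
  obtain ⟨I, _, p, hp, hli_p, hspan_p⟩ := exists_basis_family P hPfg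
  obtain ⟨k, a, b, ha, hb, hab⟩ := h.comul φ hφ
  -- first step: `φ (y + y') = ∑ₜ g t y * u t y'`
  obtain ⟨g, hg, key1⟩ := exists_rewrite a b u (fun j => hspan_u (b j) (hb j))
  have hgH : ∀ t, g t ∈ Hs := fun t =>
    (Submodule.span_le (p := Subalgebra.toSubmodule Hs)).2
      (by rintro _ ⟨j, rfl⟩; exact ha j) (hg t)
  have hginv : ∀ t, IsInv N (g t) := by
    refine isInv_of_sum_mul hact h N u hu hli_u g fun z n hn y' => ?_
    rw [← key1, ← key1, ← hab, ← hab, add_right_comm, hinv _ n hn]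
  -- second step: `φ (y + y') = ∑ᵢ hh i y' * p i y`
  obtain ⟨hh, hhh, key2⟩ := exists_rewrite u g p (fun t => hspan_p (g t) ⟨hgH t, hginv t⟩)
  have hhH : ∀ i, hh i ∈ Hs := fun i =>
    (Submodule.span_le (p := Subalgebra.toSubmodule Hs)).2
      (by rintro _ ⟨t, rfl⟩; exact hu t) (hhh i)
  have key3 : ∀ y y', φ (y + y') = ∑ i, p i y * hh i y' := by
    intro y y'
    rw [hab, key1]
    have := key2 y' y
    rw [Finset.sum_congr rfl fun t _ => mul_comm (g t y) (u t y'), this]
    exact Finset.sum_congr rfl fun i _ => mul_comm _ _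
  have hhinv : ∀ i, IsInv N (hh i) := by
    refine isInv_of_sum_mul hact h N p (fun i => (hp i).1) hli_p hh fun z n hn y' => ?_
    have e1 : ∀ w, ∑ i, hh i w * p i y' = φ (y' + w) := by
      intro w
      rw [key3]
      exact Finset.sum_congr rfl fun i _ => mul_comm _ _
    rw [e1, e1, ← add_assoc, hinv _ n hn]
  exact ⟨I, inferInstance, p, hh, fun i => (hp i).1, fun i => (hp i).2, hhH, hhinv, key3⟩

end Comul

/-- **Hopf orders pass to quotients by Galois-stable subgroups.** -/
theorem HasHopfOrder.quotient [Finite M] (hact : IsGalAction act) (N : AddSubgroup M)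
    (hN : ∀ σ, ∀ y ∈ N, act σ y ∈ N) (actQ : GQ → M ⧸ N → M ⧸ N)
    (hQ : ∀ σ y, actQ σ (QuotientAddGroup.mk y) = QuotientAddGroup.mk (act σ y))
    (h : HasHopfOrder ℓ act) : HasHopfOrder ℓ actQ := by
  classical
  obtain ⟨Hs, hH⟩ := h
  have : Fintype N := Fintype.ofFinite N
  let π : M → M ⧸ N := QuotientAddGroup.mk
  have hπ : Function.Surjective π := QuotientAddGroup.mk_surjective
  refine ⟨Hs.comap (pullbackHom ℓ π), ?_, ?_, ?_, ?_⟩
  · -- equivariance
    intro ψ hψ σ q
    obtain ⟨y, rfl⟩ := hπ q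
    rw [hQ]
    exact hH.equivariant _ ((Subalgebra.mem_comap _ _ _).1 hψ) σ y
  · -- finiteness
    have hinj : Function.Injective (pullbackHom ℓ π).toLinearMap := by
      intro ψ ψ' hψ
      funext q
      obtain ⟨y, rfl⟩ := hπ q
      exact congrFun hψ y
    refine Submodule.fg_of_fg_map_injective _ hinj ?_
    have : IsNoetherian (ratLocalizedAt ℓ) (Subalgebra.toSubmodule Hs) :=
      isNoetherian_of_fg_of_noetherian _ hH.fg
    refine (isNoetherian_submodule (N := Subalgebra.toSubmodule Hs)).1 inferInstance _ ?_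
    rintro _ ⟨ψ, hψ, rfl⟩
    exact hψ
  · -- separation
    intro q q' hqq'
    obtain ⟨y, rfl⟩ := hπ q
    obtain ⟨y', rfl⟩ := hπ q'
    have hyy' : y - y' ∉ N := by
      intro hmem
      apply hqq'
      show (QuotientAddGroup.mk y : M ⧸ N) = QuotientAddGroup.mk y'
      rw [QuotientAddGroup.eq]
      have : -y + y' = -(y - y') := by abel
      rw [this]
      exact N.neg_mem hmem
    obtain ⟨φ, hφ, hne⟩ := exists_cosetSum_ne N hH hyy'
    obtain ⟨ψ, hψ⟩ := (isInv_cosetSum N φ).exists_desc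
    refine ⟨ψ, ?_, ?_⟩
    · rw [Subalgebra.mem_comap]
      have : pullbackHom ℓ π ψ = fun x => ∑ n : N, φ (x + n) := funext hψ
      rw [this]
      exact cosetSum_mem N hact hH hN hφ
    · rw [hψ, hψ]
      exact hne
  · -- comultiplication
    intro ψ hψ
    have hφ : pullbackHom ℓ π ψ ∈ Hs := (Subalgebra.mem_comap _ _ _).1 hψ
    obtain ⟨ι, _, a, b, ha, hainv, hb, hbinv, hab⟩ :=
      exists_invariant_comul hact hH N hφ (isInv_comp_mk N ψ)
    choose a' ha' using fun j => (hainv j).exists_desc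
    choose b' hb' using fun j => (hbinv j).exists_desc
    refine DeltaRep.to_fin ⟨ι, inferInstance, a', b', fun j => ?_, fun j => ?_, fun q q' => ?_⟩
    · rw [Subalgebra.mem_comap]
      have : pullbackHom ℓ π (a' j) = a j := funext (ha' j)
      rw [this]
      exact ha j
    · rw [Subalgebra.mem_comap]
      have : pullbackHom ℓ π (b' j) = b j := funext (hb' j)
      rw [this]
      exact hb j
    · obtain ⟨y, rfl⟩ := hπ q
      obtain ⟨y', rfl⟩ := hπ q'
      show ψ (QuotientAddGroup.mk y + QuotientAddGroup.mk y') =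
        ∑ j, a' j (QuotientAddGroup.mk y) * b' j (QuotientAddGroup.mk y')
      simp only [ha', hb']
      exact hab y y'

end Fermat.Agent.S19.Base
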